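import Mathlib
import Fermat.Agent.S48.NebenChar

/-!
# S48 / DSL, part 1: the space `S_k(Γ₁(M), θ)` and its Hecke operators

* `dslV M k θ`: cusp forms of weight `k` on `Γ₁(M)` with nebentypus `θ`, a finite dimensional
  `ℂ`-vector space (`dsl_finiteDimensional`).
* `dslT hp hpM : dslV M k θ →ₗ[ℂ] dslV M k θ` the Hecke operator `T_p`, `p ∤ M`, with
  `dslT_qCoeff` and `dslT_comm`.
-/

set_option autoImplicit false

open CongruenceSubgroup UpperHalfPlane Matrix.SpecialLinearGroup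
open scoped MatrixGroups ModularForm OnePoint Manifold

namespace Fermat.Agent.S48

open ModularForm

theorem NebChar.add {N : ℕ} {k : ℤ} {χ : DirichletCharacter ℂ N} {F G : ℍ → ℂ}
    (hF : NebChar N k χ F) (hG : NebChar N k χ G) : NebChar N k χ (F + G) := by
  intro γ hγ
  rw [SlashAction.add_slash, hF γ hγ, hG γ hγ, smul_add]

theorem NebChar.smul {N : ℕ} {k : ℤ} {χ : DirichletCharacter ℂ N} {F : ℍ → ℂ}
    (hF : NebChar N k χ F) (c : ℂ) : NebChar N k χ (c • F) := by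
  intro γ hγ
  rw [ModularForm.smul_slash, neben_σ_mapGL, hF γ hγ]
  simp only [ContinuousAlgEquiv.refl_apply]
  rw [smul_comm]

theorem NebChar.zero {N : ℕ} {k : ℤ} {χ : DirichletCharacter ℂ N} :
    NebChar N k χ (0 : ℍ → ℂ) := by
  intro γ _
  rw [SlashAction.zero_slash, smul_zero]

/-- the space `S_k(Γ₁(M), θ)` -/
def dslV (M : ℕ) (k : ℤ) (θ : DirichletCharacter ℂ M) : Submodule ℂ (CuspForm (Gamma1 M) k) where
  carrier := {h | NebChar M k θ ⇑h}
  add_mem' := fun {a b} ha hb => by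
    change NebChar M k θ (⇑a + ⇑b)
    exact NebChar.add ha hb
  zero_mem' := by
    change NebChar M k θ (0 : ℍ → ℂ)
    exact NebChar.zero
  smul_mem' := fun c {a} ha => by
    change NebChar M k θ (c • ⇑a)
    exact NebChar.smul ha c

theorem mem_dslV {M : ℕ} {k : ℤ} {θ : DirichletCharacter ℂ M} (h : CuspForm (Gamma1 M) k) :
    h ∈ dslV M k θ ↔ NebChar M k θ ⇑h := Iff.rfl

/-! ### `q`-coefficients are linear, finite dimensionality -/

theorem dsl_nice {M : ℕ} {k : ℤ} (h : CuspForm (Gamma1 M) k) : NebNice ⇑h :=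
  (nebCusp_coe h).nice

theorem dsl_qCoeff_add {M : ℕ} {k : ℤ} (h h' : CuspForm (Gamma1 M) k) (n : ℕ) :
    ModularFormClass.qCoeff (⇑(h + h')) n =
      ModularFormClass.qCoeff (⇑h) n + ModularFormClass.qCoeff (⇑h') n :=
  neben_qCoeff_add (dsl_nice h) (dsl_nice h') n

theorem dsl_qCoeff_smul {M : ℕ} {k : ℤ} (c : ℂ) (h : CuspForm (Gamma1 M) k) (n : ℕ) :
    ModularFormClass.qCoeff (⇑(c • h)) n = c * ModularFormClass.qCoeff (⇑h) n :=
  neben_qCoeff_smul (dsl_nice h) c n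

theorem dsl_qCoeff_sub {M : ℕ} {k : ℤ} (h h' : CuspForm (Gamma1 M) k) (n : ℕ) :
    ModularFormClass.qCoeff (⇑(h - h')) n =
      ModularFormClass.qCoeff (⇑h) n - ModularFormClass.qCoeff (⇑h') n :=
  neben_qCoeff_sub (dsl_nice h) (dsl_nice h') n

theorem dsl_ext {M : ℕ} {k : ℤ} {h h' : CuspForm (Gamma1 M) k}
    (H : ∀ n, ModularFormClass.qCoeff (⇑h) n = ModularFormClass.qCoeff (⇑h') n) : h = h' :=
  DFunLike.coe_injective (neben_eq_of_qCoeff (dsl_nice h) (dsl_nice h') H)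

/-- the truncated `q`-expansion -/
noncomputable def dslTrunc (M : ℕ) (k : ℤ) (B : ℕ) :
    CuspForm (Gamma1 M) k →ₗ[ℂ] (Fin (B + 1) → ℂ) where
  toFun h := fun i => ModularFormClass.qCoeff (⇑h) i
  map_add' h h' := by
    funext i
    exact dsl_qCoeff_add h h' i
  map_smul' c h := by
    funext i
    exact dsl_qCoeff_smul c h i

instance dsl_finiteDimensional_cuspForm (M : ℕ) [NeZero M] (k : ℤ) :
    FiniteDimensional ℂ (CuspForm (Gamma1 M) k) := by
  obtain ⟨B, hB⟩ := neben_sturm M k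
  refine FiniteDimensional.of_injective (dslTrunc M k B) ?_
  rw [injective_iff_map_eq_zero]
  intro h hh
  have h0 : (⇑h : ℍ → ℂ) = 0 := by
    refine hB _ (nebCusp_coe h) ?_
    intro n hn
    have := congrFun hh ⟨n, Nat.lt_succ_of_le hn⟩
    exact this
  exact DFunLike.coe_injective h0

instance dsl_finiteDimensional (M : ℕ) [NeZero M] (k : ℤ) (θ : DirichletCharacter ℂ M) :
    FiniteDimensional ℂ (dslV M k θ) :=
  FiniteDimensional.finiteDimensional_submodule _

/-! ### The Hecke operators -/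

/-- the Hecke operator `T_p`, as a function -/
noncomputable def dslTfun {M : ℕ} [NeZero M] {k : ℤ} {θ : DirichletCharacter ℂ M} {p : ℕ}
    (hp : p.Prime) (hpM : ¬ p ∣ M) (h : dslV M k θ) : dslV M k θ :=
  ⟨Classical.choose (nebChar_exists_heckeT_cusp θ hp hpM h.1 h.2),
    (Classical.choose_spec (nebChar_exists_heckeT_cusp θ hp hpM h.1 h.2)).1⟩

theorem dslTfun_coe {M : ℕ} [NeZero M] {k : ℤ} {θ : DirichletCharacter ℂ M} {p : ℕ}
    (hp : p.Prime) (hpM : ¬ p ∣ M) (h : dslV M k θ) :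
    (⇑(dslTfun hp hpM h).1 : ℍ → ℂ) =
      heckeU k p ⇑h.1 + θ (p : ZMod M) • ((⇑h.1 : ℍ → ℂ) ∣[k] heckeDiagMatrix p) :=
  (Classical.choose_spec (nebChar_exists_heckeT_cusp θ hp hpM h.1 h.2)).2.1

theorem dslTfun_qCoeff {M : ℕ} [NeZero M] {k : ℤ} {θ : DirichletCharacter ℂ M} {p : ℕ}
    (hp : p.Prime) (hpM : ¬ p ∣ M) (h : dslV M k θ) (n : ℕ) :
    ModularFormClass.qCoeff (⇑(dslTfun hp hpM h).1) n =
      ModularFormClass.qCoeff (⇑h.1) (p * n) + (p : ℂ) ^ (k - 1) * θ (p : ZMod M) *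
        (if p ∣ n then ModularFormClass.qCoeff (⇑h.1) (n / p) else 0) :=
  (Classical.choose_spec (nebChar_exists_heckeT_cusp θ hp hpM h.1 h.2)).2.2 n

/-- the Hecke operator `T_p` on `S_k(Γ₁(M), θ)`, `p ∤ M` -/
noncomputable def dslT {M : ℕ} [NeZero M] {k : ℤ} {θ : DirichletCharacter ℂ M} {p : ℕ}
    (hp : p.Prime) (hpM : ¬ p ∣ M) : dslV M k θ →ₗ[ℂ] dslV M k θ where
  toFun := dslTfun hp hpM
  map_add' h h' := by
    apply Subtype.ext
    apply dsl_ext
    intro n
    rw [Submodule.coe_add, dsl_qCoeff_add, dslTfun_qCoeff, dslTfun_qCoeff, dslTfun_qCoeff,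
      Submodule.coe_add, dsl_qCoeff_add, dsl_qCoeff_add]
    split_ifs <;> ring
  map_smul' c h := by
    apply Subtype.ext
    apply dsl_ext
    intro n
    rw [RingHom.id_apply, Submodule.coe_smul, dsl_qCoeff_smul, dslTfun_qCoeff, dslTfun_qCoeff,
      Submodule.coe_smul, dsl_qCoeff_smul, dsl_qCoeff_smul]
    split_ifs <;> ring

theorem dslT_qCoeff {M : ℕ} [NeZero M] {k : ℤ} {θ : DirichletCharacter ℂ M} {p : ℕ}
    (hp : p.Prime) (hpM : ¬ p ∣ M) (h : dslV M k θ) (n : ℕ) :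
    ModularFormClass.qCoeff (⇑(dslT hp hpM h).1) n =
      ModularFormClass.qCoeff (⇑h.1) (p * n) + (p : ℂ) ^ (k - 1) * θ (p : ZMod M) *
        (if p ∣ n then ModularFormClass.qCoeff (⇑h.1) (n / p) else 0) :=
  dslTfun_qCoeff hp hpM h n

/-- the coefficient operator `a ↦ (n ↦ a(pn) + c [p ∣ n] a(n/p))` -/
def dslC (p : ℕ) (c : ℂ) (a : ℕ → ℂ) (n : ℕ) : ℂ :=
  a (p * n) + c * (if p ∣ n then a (n / p) else 0)

theorem dslC_comm {p q : ℕ} (hp : p.Prime) (hq : q.Prime) (hpq : p ≠ q) (c d : ℂ) (a : ℕ → ℂ)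
    (n : ℕ) : dslC p c (dslC q d a) n = dslC q d (dslC p c a) n := by
  have hp0 : 0 < p := hp.pos
  have hq0 : 0 < q := hq.pos
  have hqp : ¬ q ∣ p := fun h => hpq ((Nat.prime_dvd_prime_iff_eq hq hp).mp h).symm
  have hpq' : ¬ p ∣ q := fun h => hpq ((Nat.prime_dvd_prime_iff_eq hp hq).mp h)
  have e1 : (q ∣ p * n) ↔ q ∣ n := by
    rw [Nat.Prime.dvd_mul hq]
    exact ⟨fun h => h.resolve_left hqp, Or.inr⟩
  have e2 : (p ∣ q * n) ↔ p ∣ n := by
    rw [Nat.Prime.dvd_mul hp]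
    exact ⟨fun h => h.resolve_left hpq', Or.inr⟩
  unfold dslC
  by_cases h1 : p ∣ n
  · obtain ⟨m, rfl⟩ := h1
    have e3 : (q ∣ p * m) ↔ q ∣ m := by
      rw [Nat.Prime.dvd_mul hq]
      exact ⟨fun h => h.resolve_left hqp, Or.inr⟩
    by_cases h2 : q ∣ m
    · obtain ⟨r, rfl⟩ := h2
      have x1 : p * (p * (q * r)) / q = p * (p * r) := by
        rw [show p * (p * (q * r)) = q * (p * (p * r)) by ring, Nat.mul_div_cancel_left _ hq0]
      have x2 : p * (q * r) / p = q * r := Nat.mul_div_cancel_left _ hp0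
      have x3 : q * r / q = r := Nat.mul_div_cancel_left _ hq0
      have x4 : q * (p * (q * r)) / p = q * (q * r) := by
        rw [show q * (p * (q * r)) = p * (q * (q * r)) by ring, Nat.mul_div_cancel_left _ hp0]
      have x5 : p * (q * r) / q = p * r := by
        rw [show p * (q * r) = q * (p * r) by ring, Nat.mul_div_cancel_left _ hq0]
      have x6 : p * r / p = r := Nat.mul_div_cancel_left _ hp0
      have d1 : q ∣ p * (p * (q * r)) := ⟨p * (p * r), by ring⟩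
      have d2 : p ∣ p * (q * r) := ⟨q * r, rfl⟩
      have d3 : q ∣ q * r := ⟨r, rfl⟩
      have d4 : p ∣ q * (p * (q * r)) := ⟨q * (q * r), by ring⟩
      have d5 : q ∣ p * (q * r) := ⟨p * r, by ring⟩
      have d6 : p ∣ p * r := ⟨r, rfl⟩
      rw [if_pos d1, if_pos d2, if_pos d4, if_pos d5, x1, x2, x4, x5, if_pos d3, if_pos d6, x3, x6]
      have y1 : q * (p * (p * (q * r))) = p * (q * (p * (q * r))) := by ring
      have y2 : q * (q * r) = q * (q * r) := rfl
      rw [y1]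
      ring
    · have h2' : ¬ q ∣ p * m := fun h => h2 (e3.mp h)
      have h3 : ¬ q ∣ p * (p * m) := fun h => h2' ((by
        rw [Nat.Prime.dvd_mul hq] at h
        exact h.resolve_left hqp))
      have x2 : p * m / p = m := Nat.mul_div_cancel_left _ hp0
      have x4 : q * (p * m) / p = q * m := by
        rw [show q * (p * m) = p * (q * m) by ring, Nat.mul_div_cancel_left _ hp0]
      have d2 : p ∣ p * m := ⟨m, rfl⟩
      have d4 : p ∣ q * (p * m) := ⟨q * m, by ring⟩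
      rw [if_neg h3, if_pos d2, if_pos d4, if_neg h2', x2, x4, if_neg h2]
      have y1 : q * (p * (p * m)) = p * (q * (p * m)) := by ring
      rw [y1]
      ring
  · have h1' : ¬ p ∣ q * n := fun h => h1 (e2.mp h)
    by_cases h2 : q ∣ n
    · obtain ⟨r, rfl⟩ := h2
      have h4 : ¬ p ∣ r := fun h => h1 (Dvd.dvd.mul_left h q)
      have x1 : p * (q * r) / q = p * r := by
        rw [show p * (q * r) = q * (p * r) by ring, Nat.mul_div_cancel_left _ hq0]
      have x3 : q * r / q = r := Nat.mul_div_cancel_left _ hq0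
      have d1 : q ∣ p * (q * r) := ⟨p * r, by ring⟩
      have d3 : q ∣ q * r := ⟨r, rfl⟩
      rw [if_pos d1, if_neg h1, if_neg h1', if_pos d3, x1, x3, if_neg h4]
      have y1 : q * (p * (q * r)) = p * (q * (q * r)) := by ring
      rw [y1]
      ring
    · have h2' : ¬ q ∣ p * n := fun h => h2 (e1.mp h)
      rw [if_neg h2', if_neg h1, if_neg h1', if_neg h2]
      have y1 : q * (p * n) = p * (q * n) := by ring
      rw [y1]
      ring

theorem dslT_qCoeff' {M : ℕ} [NeZero M] {k : ℤ} {θ : DirichletCharacter ℂ M} {p : ℕ}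
    (hp : p.Prime) (hpM : ¬ p ∣ M) (h : dslV M k θ) (n : ℕ) :
    ModularFormClass.qCoeff (⇑(dslT hp hpM h).1) n =
      dslC p ((p : ℂ) ^ (k - 1) * θ (p : ZMod M)) (ModularFormClass.qCoeff (⇑h.1)) n :=
  dslTfun_qCoeff hp hpM h n

/-- the Hecke operators commute -/
theorem dslT_comm {M : ℕ} [NeZero M] {k : ℤ} {θ : DirichletCharacter ℂ M} {p q : ℕ}
    (hp : p.Prime) (hpM : ¬ p ∣ M) (hq : q.Prime) (hqM : ¬ q ∣ M) :
    (dslT hp hpM : Module.End ℂ (dslV M k θ)) * dslT hq hqM = dslT hq hqM * dslT hp hpM := by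
  by_cases hpq : p = q
  · subst hpq
    rfl
  apply LinearMap.ext
  intro h
  apply Subtype.ext
  apply dsl_ext
  intro n
  rw [Module.End.mul_apply, Module.End.mul_apply, dslT_qCoeff', dslT_qCoeff']
  have e1 : ModularFormClass.qCoeff (⇑(dslT hq hqM h).1) =
      dslC q ((q : ℂ) ^ (k - 1) * θ (q : ZMod M)) (ModularFormClass.qCoeff (⇑h.1)) :=
    funext fun n => dslT_qCoeff' hq hqM h n
  have e2 : ModularFormClass.qCoeff (⇑(dslT hp hpM h).1) =
      dslC p ((p : ℂ) ^ (k - 1) * θ (p : ZMod M)) (ModularFormClass.qCoeff (⇑h.1)) :=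
    funext fun n => dslT_qCoeff' hp hpM h n
  rw [e1, e2]
  exact dslC_comm hp hq hpq _ _ _ n

end Fermat.Agent.S48
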